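import Mathlib
import Fermat.Prelude.Def_FLTPrelim_Modularity
import Fermat.Prelude.Def_FLTPrelim_Ramification
import Fermat.Agent.S05.Good
import Fermat.Agent.S05.H63.Inertia
import Fermat.Agent.S05.H98.VarChangeGalois

/-!
# S41 / U7-BRIDGE, fixed-point half

Let `W` be a Weierstrass curve over `ℤ`, `l ≠ p` primes with `p` odd and `l ∤ Δ(W)`, `A` a
valuation subring of `ℚ̄` lying over `l` and `g` an element of its decomposition group.  A
`p`-torsion point of `W(ℚ̄)` whose coordinates are congruent to integers modulo the maximal ideal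
of `A` is fixed by `g` (`smul_eq_of_congr_int`).

Proof: `g` fixes the integers and preserves the maximal ideal, so `g • P` and `P` have the same
(nonsingular) reduction; then `g • P - P` is a `p`-torsion point in the kernel of reduction, hence
zero (landed S05 machinery: `H63.some_sub_some_eq_zero_or_X_not_mem`, `H60.torsion_integral'`).
-/

set_option autoImplicit false

open WeierstrassCurve WeierstrassCurve.Affine WeierstrassCurve.Affine.Point

namespace Fermat.Agent.S41.H54

local notation "Qbar" => AlgebraicClosure ℚ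

/-- **U7-BRIDGE, fixed-point half.** -/
theorem smul_eq_of_congr_int (W : WeierstrassCurve ℤ) {p l : ℕ} (hp : p.Prime) (hp2 : p ≠ 2)
    (hl : l.Prime) (hlp : l ≠ p) (hgood : W.IsGoodPrimeFor l) (A : ValuationSubring Qbar)
    (hA : A.LiesOverPrime l) (g : Qbar ≃ₐ[ℚ] Qbar) (hg : g ∈ A.decompositionSubgroup ℚ)
    {x y : Qbar} (h : ((W.map (Int.castRingHom ℚ))⁄Qbar).Nonsingular x y) (n m : ℤ)
    (hP : p • Point.some x y h = 0)
    (hx : A.valuation (x - n) < 1) (hy : A.valuation (y - m) < 1) :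
    g • Point.some x y h = Point.some x y h := by
  have hlA : A.valuation (l : Qbar) < 1 := A.mem_nonunits_iff.mp hA
  have hpA : A.valuation (p : Qbar) = 1 :=
    Fermat.Agent.S05.val_natCast_eq_one A hl hlA
      (by rw [Nat.prime_dvd_prime_iff_eq hl hp]; exact hlp)
  have hcoe : ∀ z : ℤ, algebraMap ℚ Qbar (Int.castRingHom ℚ z) ∈ A := fun z => by
    rw [eq_intCast, map_intCast]
    exact intCast_mem A z
  have ha₁ : ((W.map (Int.castRingHom ℚ))⁄Qbar).a₁ ∈ A := hcoe _
  have ha₂ : ((W.map (Int.castRingHom ℚ))⁄Qbar).a₂ ∈ A := hcoe _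
  have ha₃ : ((W.map (Int.castRingHom ℚ))⁄Qbar).a₃ ∈ A := hcoe _
  have ha₄ : ((W.map (Int.castRingHom ℚ))⁄Qbar).a₄ ∈ A := hcoe _
  have ha₆ : ((W.map (Int.castRingHom ℚ))⁄Qbar).a₆ ∈ A := hcoe _
  have hmem : ∀ {z : Qbar} {k : ℤ}, A.valuation (z - k) < 1 → z ∈ A := fun {z k} hz => by
    have h1 : z - k ∈ A := (A.valuation_le_one_iff _).mp hz.le
    have := add_mem h1 (intCast_mem A k)
    rwa [sub_add_cancel] at this
  have hxA : x ∈ A := hmem hx
  have hyA : y ∈ A := hmem hy
  have hΔ' : A.valuation ((W.map (Int.castRingHom ℚ))⁄Qbar).Δ = 1 := by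
    have e : ((W.map (Int.castRingHom ℚ))⁄Qbar).Δ = ((W.Δ : ℤ) : Qbar) := by
      rw [show ((W.map (Int.castRingHom ℚ))⁄Qbar).Δ =
        algebraMap ℚ Qbar (W.map (Int.castRingHom ℚ)).Δ from WeierstrassCurve.map_Δ _ _,
        WeierstrassCurve.map_Δ, eq_intCast, map_intCast]
    rw [e]
    exact Fermat.Agent.S05.val_intCast_eq_one A hl hlA hgood
  have hns := Fermat.Agent.S05.nonsingular_reduction_of_Δ A ((W.map (Int.castRingHom ℚ))⁄Qbar)
    ha₁ ha₂ ha₃ ha₄ ha₆ hΔ' h.1 hxA
  rw [Affine.evalEval_polynomialX, Affine.evalEval_polynomialY] at hns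
  have hns' : ((W.map (Int.castRingHom ℚ))⁄Qbar).a₁ * y -
        (3 * x ^ 2 + 2 * ((W.map (Int.castRingHom ℚ))⁄Qbar).a₂ * x +
          ((W.map (Int.castRingHom ℚ))⁄Qbar).a₄) ∉ A.nonunits ∨
      2 * y + ((W.map (Int.castRingHom ℚ))⁄Qbar).a₁ * x +
        ((W.map (Int.castRingHom ℚ))⁄Qbar).a₃ ∉ A.nonunits := by
    rcases hns with h1 | h1
    · exact Or.inl fun hmem => by
        rw [A.mem_nonunits_iff, h1] at hmem; exact lt_irrefl _ hmem
    · exact Or.inr fun hmem => by
        rw [A.mem_nonunits_iff, h1] at hmem; exact lt_irrefl _ hmem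
  -- `g` moves the coordinates inside their residue classes
  have hgsub : ∀ {z : Qbar} {k : ℤ}, A.valuation (z - k) < 1 → g z - z ∈ A.nonunits :=
    fun {z k} hz => by
      have h1 : z - k ∈ A.nonunits := A.mem_nonunits_iff.mpr hz
      have h2 : g (z - k) ∈ A.nonunits :=
        Fermat.Agent.S05.H63.apply_mem_nonunits_of_mem_decompositionSubgroup hg h1
      have e : g z - z = g (z - k) - (z - k) := by
        rw [map_sub, map_intCast]
        ring
      rw [e, A.mem_nonunits_iff]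
      exact Valuation.map_sub_lt _ (A.mem_nonunits_iff.mp h2) hz
  obtain ⟨h', hmap⟩ := Fermat.Agent.S05.H98.exists_smul_some (W.map (Int.castRingHom ℚ)) g h
  rw [hmap]
  rcases Fermat.Agent.S05.H63.some_sub_some_eq_zero_or_X_not_mem A
      ((W.map (Int.castRingHom ℚ))⁄Qbar) ha₁ ha₂ ha₃ ha₄ h h'
      hxA hyA (hgsub hx) (hgsub hy) hns' with h0 | ⟨x'', y'', h'', hQ, hnot⟩
  · exact sub_eq_zero.mp h0
  · exfalso
    have hQ0 : Point.some (g x) (g y) h' - Point.some x y h ≠ 0 := by
      rw [hQ]; exact Point.some_ne_zero h''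
    have hpQ : p • (Point.some (g x) (g y) h' - Point.some x y h) = 0 := by
      rw [← hmap, nsmul_sub, ← Fermat.Agent.S05.galois_smul_nsmul, hP,
        smul_zero (A := ((W.map (Int.castRingHom ℚ))⁄Qbar).Point) g, sub_zero]
    have := Fermat.Agent.S05.H60.torsion_integral' (W := (W.map (Int.castRingHom ℚ))⁄Qbar) A
      ha₁ ha₂ ha₃ ha₄ ha₆ hp hp2 hpA hQ0 hpQ
    rw [hQ] at this
    exact hnot this

end Fermat.Agent.S41.H54
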