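import Mathlib
import Fermat.Prelude.Def_FLTPrelim_Modularity
import Fermat.Prelude.Def_FLTPrelim_Ramification
import Fermat.Agent.S05.Good
import Fermat.Agent.S13.H56.TorsionFinal

/-!
# S41 / U7-BRIDGE, lifting half

Let `W` be a Weierstrass curve over `ℤ`, `l ≠ p` primes with `p` odd and `l ∤ Δ(W)`, and `A` a
valuation subring of `ℚ̄` lying over `l`.  If `p ∣ #W(𝔽_l) = l + 1 - a_l(W)` then there is a nonzero
`p`-torsion point `(x, y)` of `W(ℚ̄)` whose coordinates are congruent to integers modulo the maximal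
ideal of `A` (`exists_torsion_congr_int`).

Proof: Cauchy gives a point of order `p` in `W(𝔽_l)`; its `x`-coordinate is a root modulo `l` of
the ladder polynomial `ladD W k` (`p = 2k+1`, leading coefficient `-p`), which splits over `ℚ̄`;
hence one of its roots is congruent to an integer lift, and the corresponding `y`-coordinate is
congruent to an integer by the Weierstrass equation.
-/

set_option autoImplicit false

open WeierstrassCurve Polynomial

namespace Fermat.Agent.S41.H54

section Valuation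

variable {L : Type*} [Field L] (A : ValuationSubring L)

/-- A product of elements none of which lies in the maximal ideal is not in the maximal ideal. -/
lemma one_le_val_multiset_prod (s : Multiset L) (hs : ∀ a ∈ s, 1 ≤ A.valuation a) :
    1 ≤ A.valuation s.prod := by
  induction s using Multiset.induction_on with
  | empty => simp
  | cons a s ih =>
    rw [Multiset.prod_cons, map_mul]
    have h1 := hs a (Multiset.mem_cons_self a s)
    have h2 := ih fun b hb => hs b (Multiset.mem_cons_of_mem hb)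
    calc (1 : A.ValueGroup) = 1 * 1 := (one_mul 1).symm
      _ ≤ A.valuation a * A.valuation s.prod := mul_le_mul' h1 h2

/-- If a polynomial over an algebraically closed field has leading coefficient a unit of `A` and
its value at `c` lies in the maximal ideal, then `c` is congruent to one of its roots. -/
lemma exists_root_val_sub_lt_one [IsAlgClosed L] (F : L[X]) (hF : F ≠ 0)
    (hlc : A.valuation F.leadingCoeff = 1) (c : L) (hc : A.valuation (F.eval c) < 1) :
    ∃ ξ : L, F.eval ξ = 0 ∧ A.valuation (ξ - c) < 1 := by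
  by_contra hcon
  push Not at hcon
  have h1 : 1 ≤ A.valuation (F.roots.map (c - ·)).prod := by
    apply one_le_val_multiset_prod
    intro a ha
    obtain ⟨ξ, hξ, rfl⟩ := Multiset.mem_map.mp ha
    have hroot : F.eval ξ = 0 := (Polynomial.mem_roots hF).mp hξ
    have := hcon ξ hroot
    rwa [Valuation.map_sub_swap] at this
  rw [(IsAlgClosed.splits F).eval_eq_prod_roots c, map_mul, hlc, one_mul] at hc
  exact absurd hc (not_lt.mpr h1)

lemma val_sub_intCast_mem {x : L} {n : ℤ} (h : A.valuation (x - n) < 1) : x ∈ A := by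
  have h1 : x - n ∈ A := (A.valuation_le_one_iff _).mp h.le
  have h2 : (n : L) ∈ A := intCast_mem A n
  have := add_mem h1 h2
  rwa [sub_add_cancel] at this

end Valuation

section Lift

open WeierstrassCurve.Affine WeierstrassCurve.Affine.Point
open Fermat.Agent.S13.H15 (ladD ladD_map)

local notation "Qbar" => AlgebraicClosure ℚ

/-- The curve `(W_ℚ)⁄ℚ̄` is the base change of `W` along `ℤ → ℚ̄`. -/
lemma baseChange_eq_map_int (W : WeierstrassCurve ℤ) :
    ((W.map (Int.castRingHom ℚ))⁄Qbar : WeierstrassCurve Qbar) =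
      W.map (Int.castRingHom Qbar) := by
  show (W.map (Int.castRingHom ℚ)).map (algebraMap ℚ Qbar) = _
  rw [WeierstrassCurve.map_map]
  congr 1

/-- Cauchy: if `p` divides `l + 1 - a_l(W) = #W(𝔽_l)`, the reduction of `W` modulo `l` has a
nonzero point killed by `p`. -/
lemma exists_point_of_dvd (W : WeierstrassCurve ℤ) {p l : ℕ} [Fact p.Prime] [Fact l.Prime]
    (hdvd : (p : ℤ) ∣ (l : ℤ) + 1 - W.apOfModel l) :
    ∃ T : (W.reductionMod l).toAffine.Point, T ≠ 0 ∧ p • T = 0 := by
  have hcard : (l : ℤ) + 1 - W.apOfModel l =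
      (Nat.card (W.reductionMod l).toAffine.Point : ℤ) := by
    simp only [WeierstrassCurve.apOfModel, WeierstrassCurve.traceOfFrobenius,
      WeierstrassCurve.card, Nat.card_zmod]
    ring
  rw [hcard] at hdvd
  have hdvd' : p ∣ Nat.card (W.reductionMod l).toAffine.Point := Int.natCast_dvd_natCast.mp hdvd
  obtain ⟨T, hT⟩ := exists_prime_addOrderOf_dvd_card' p hdvd'
  refine ⟨T, ?_, ?_⟩
  · rintro rfl
    rw [addOrderOf_zero] at hT
    exact (Fact.out : p.Prime).one_lt.ne hT
  · rw [← hT]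
    exact addOrderOf_nsmul_eq_zero T

/-- **U7-BRIDGE, lifting half.**  If `p ∣ l + 1 - a_l(W)` at a good prime `l ≠ p`, there is a
`p`-torsion point of `W(ℚ̄)` whose coordinates are congruent to integers modulo the maximal ideal
of `A`. -/
theorem exists_torsion_congr_int (W : WeierstrassCurve ℤ) {p l : ℕ} (hp : p.Prime) (hp2 : p ≠ 2)
    (hl : l.Prime) (hlp : l ≠ p) (hgood : W.IsGoodPrimeFor l) (A : ValuationSubring Qbar)
    (hA : A.LiesOverPrime l) (hdvd : (p : ℤ) ∣ (l : ℤ) + 1 - W.apOfModel l) :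
    ∃ (x y : Qbar) (h : ((W.map (Int.castRingHom ℚ))⁄Qbar).Nonsingular x y) (n m : ℤ),
      p • Point.some x y h = 0 ∧ A.valuation (x - n) < 1 ∧ A.valuation (y - m) < 1 := by
  have : Fact p.Prime := ⟨hp⟩
  have : Fact l.Prime := ⟨hl⟩
  have hlA : A.valuation (l : Qbar) < 1 := A.mem_nonunits_iff.mp hA
  have hpA : A.valuation (p : Qbar) = 1 :=
    Fermat.Agent.S05.val_natCast_eq_one A hl hlA
      (by rw [Nat.prime_dvd_prime_iff_eq hl hp]; exact hlp)
  obtain ⟨T, hT0, hTp⟩ := exists_point_of_dvd W hdvd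
  obtain ⟨k, hk, rfl⟩ := Fermat.Agent.S13.H56.exists_eq_two_mul_add_one hp hp2
  obtain ⟨x0, y0, h0, rfl⟩ := Fermat.Agent.S05.exists_some_of_ne_zero hT0
  -- the ladder polynomial vanishes at `x0`
  have hlad0 : (ladD (W.reductionMod l) k).eval x0 = 0 :=
    (Fermat.Agent.S13.H56.ladLink (W.reductionMod l).toAffine k x0 y0 h0).mp hTp
  -- integer lifts
  obtain ⟨n, rfl⟩ := ZMod.intCast_surjective x0
  obtain ⟨m0, rfl⟩ := ZMod.intCast_surjective y0
  have hln : (l : ℤ) ∣ (ladD W k).eval n := by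
    rw [← ZMod.intCast_zmod_eq_zero_iff_dvd]
    have e : ladD (W.reductionMod l) k = (ladD W k).map (Int.castRingHom (ZMod l)) :=
      ladD_map _ W k
    rw [e, show ((n : ℤ) : ZMod l) = Int.castRingHom (ZMod l) n from rfl,
      Polynomial.eval_map_apply] at hlad0
    exact hlad0
  -- the ladder polynomial over `ℚ̄`
  have hFlad : ladD ((W.map (Int.castRingHom ℚ))⁄Qbar) k =
      (ladD W k).map (Int.castRingHom Qbar) := by
    rw [baseChange_eq_map_int, ladD_map]
  have hFne : (ladD W k).map (Int.castRingHom Qbar) ≠ 0 := by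
    rw [← hFlad]
    exact Fermat.Agent.S13.H56.ladD_ne_zero _ k
  have hlc : A.valuation ((ladD W k).map (Int.castRingHom Qbar)).leadingCoeff = 1 := by
    rw [← hFlad, Polynomial.leadingCoeff, Fermat.Agent.S13.H56.ladD_natDegree,
      Fermat.Agent.S13.H56.ladD_coeff, Valuation.map_neg]
    exact hpA
  have hFn : A.valuation (((ladD W k).map (Int.castRingHom Qbar)).eval (n : Qbar)) < 1 := by
    rw [show (n : Qbar) = Int.castRingHom Qbar n from rfl, Polynomial.eval_map_apply]
    exact Fermat.Agent.S05.val_intCast_lt_one A hlA hln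
  obtain ⟨ξ, hξroot, hξn⟩ := exists_root_val_sub_lt_one A _ hFne hlc n hFn
  -- the point above `ξ`
  have hΔ : ((W.map (Int.castRingHom ℚ))⁄Qbar).Δ ≠ 0 := by
    rw [baseChange_eq_map_int, WeierstrassCurve.map_Δ]
    intro h0
    apply hgood
    have h1 : W.Δ = 0 :=
      RingHom.injective_int (Int.castRingHom Qbar) (by rw [h0, _root_.map_zero])
    rw [h1]
    exact dvd_zero _
  obtain ⟨η, hη⟩ := Fermat.Agent.S13.H56.exists_nonsingular_of_isAlgClosed _ hΔ ξ
  have hpP : (2 * k + 1) • Point.some ξ η hη = 0 :=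
    (Fermat.Agent.S13.H56.ladLink _ k ξ η hη).mpr (by rw [hFlad]; exact hξroot)
  -- the Weierstrass equations
  have hEq0 : (l : ℤ) ∣ m0 ^ 2 + W.a₁ * n * m0 + W.a₃ * m0 -
      (n ^ 3 + W.a₂ * n ^ 2 + W.a₄ * n + W.a₆) := by
    rw [← ZMod.intCast_zmod_eq_zero_iff_dvd]
    have h1 := (Affine.equation_iff _ _).mp h0.1
    simp only [WeierstrassCurve.reductionMod, WeierstrassCurve.map_a₁, WeierstrassCurve.map_a₂,
      WeierstrassCurve.map_a₃, WeierstrassCurve.map_a₄, WeierstrassCurve.map_a₆,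
      eq_intCast] at h1
    push_cast
    linear_combination h1
  have hEq : η ^ 2 + (W.a₁ : Qbar) * ξ * η + (W.a₃ : Qbar) * η =
      ξ ^ 3 + (W.a₂ : Qbar) * ξ ^ 2 + (W.a₄ : Qbar) * ξ + (W.a₆ : Qbar) := by
    have h1 := (Affine.equation_iff _ _).mp hη.1
    simp only [WeierstrassCurve.baseChange, WeierstrassCurve.map_a₁, WeierstrassCurve.map_a₂,
      WeierstrassCurve.map_a₃, WeierstrassCurve.map_a₄, WeierstrassCurve.map_a₆,
      eq_intCast, map_intCast] at h1
    exact h1
  -- integrality of the point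
  have hξA : ξ ∈ A := val_sub_intCast_mem A hξn
  have hcoe : ∀ z : ℤ, algebraMap ℚ Qbar (Int.castRingHom ℚ z) ∈ A := fun z => by
    rw [eq_intCast, map_intCast]
    exact intCast_mem A z
  have hηA : η ∈ A :=
    Fermat.Agent.S05.y_mem_of_x_mem A ((W.map (Int.castRingHom ℚ))⁄Qbar) (hcoe _) (hcoe _)
      (hcoe _) (hcoe _) (hcoe _) hη.1 hξA
  have hint : ∀ z : ℤ, A.valuation (z : Qbar) ≤ 1 := fun z =>
    (A.valuation_le_one_iff _).mpr (intCast_mem A z)
  have hξ1 : A.valuation ξ ≤ 1 := (A.valuation_le_one_iff _).mpr hξA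
  have hη1 : A.valuation η ≤ 1 := (A.valuation_le_one_iff _).mpr hηA
  -- the product `(η - m0) (η + m0 + a₁ n + a₃)` lies in the maximal ideal
  have hprod : A.valuation ((η - m0) * (η + m0 + (W.a₁ : Qbar) * n + (W.a₃ : Qbar))) < 1 := by
    have e : (η - m0) * (η + m0 + (W.a₁ : Qbar) * n + (W.a₃ : Qbar)) =
        (ξ - n) * (ξ ^ 2 + ξ * n + (n : Qbar) ^ 2 + (W.a₂ : Qbar) * (ξ + n) + (W.a₄ : Qbar)
          - (W.a₁ : Qbar) * η) +
        (((-(m0 ^ 2 + W.a₁ * n * m0 + W.a₃ * m0 -
          (n ^ 3 + W.a₂ * n ^ 2 + W.a₄ * n + W.a₆)) : ℤ)) : Qbar) := by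
      push_cast
      linear_combination hEq
    rw [e]
    refine Valuation.map_add_lt _ ?_ ?_
    · rw [map_mul]
      have hc : ξ ^ 2 + ξ * n + (n : Qbar) ^ 2 + (W.a₂ : Qbar) * (ξ + n) + (W.a₄ : Qbar)
          - (W.a₁ : Qbar) * η ∈ A :=
        sub_mem (add_mem (add_mem (add_mem (add_mem (pow_mem hξA 2)
          (mul_mem hξA (intCast_mem A n))) (pow_mem (intCast_mem A n) 2))
          (mul_mem (intCast_mem A _) (add_mem hξA (intCast_mem A n)))) (intCast_mem A _))
          (mul_mem (intCast_mem A _) hηA)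
      calc A.valuation (ξ - n) * A.valuation _ ≤ A.valuation (ξ - n) * 1 := by
            gcongr
            exact (A.valuation_le_one_iff _).mpr hc
        _ < 1 := by rwa [mul_one]
    · exact Fermat.Agent.S05.val_intCast_lt_one A hlA ((dvd_neg).mpr hEq0)
  by_cases hcase : A.valuation (η - m0) < 1
  · exact ⟨ξ, η, hη, n, m0, hpP, hξn, hcase⟩
  · refine ⟨ξ, η, hη, n, -m0 - W.a₁ * n - W.a₃, hpP, hξn, ?_⟩
    have e : η - ((-m0 - W.a₁ * n - W.a₃ : ℤ) : Qbar) =
        η + m0 + (W.a₁ : Qbar) * n + (W.a₃ : Qbar) := by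
      push_cast
      ring
    rw [e]
    by_contra hcon
    rw [map_mul] at hprod
    have h1 : (1 : A.ValueGroup) ≤ A.valuation (η - m0) := not_lt.mp hcase
    have h2 : (1 : A.ValueGroup) ≤ A.valuation (η + m0 + (W.a₁ : Qbar) * n + (W.a₃ : Qbar)) :=
      not_lt.mp hcon
    have h3 : (1 : A.ValueGroup) ≤ A.valuation (η - m0) *
        A.valuation (η + m0 + (W.a₁ : Qbar) * n + (W.a₃ : Qbar)) := by
      calc (1 : A.ValueGroup) = 1 * 1 := (one_mul 1).symm
        _ ≤ _ := mul_le_mul' h1 h2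
    exact absurd hprod (not_lt.mpr h3)

end Lift

end Fermat.Agent.S41.H54
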