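import Fermat.Agent.S41.H2.NeAsm
import Fermat.Agent.S41.H54.BridgeLift
import Fermat.Agent.S41.H54.BridgeFixed

/-!
# S41 / U7-BRIDGE

The leaf statement `Fermat.Agent.S41.H2.BridgeStatement` of the landed U7 assembly
`Fermat.Agent.S41.H2.ne_witness_of`: at a good prime `l ∤ 2p` with `p ∣ l + 1 - a_l(W)`, every
element of a decomposition group over `l` fixes a nonzero `p`-torsion point of `W(ℚ̄)`.
-/

set_option autoImplicit false

open WeierstrassCurve WeierstrassCurve.Affine WeierstrassCurve.Affine.Point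

namespace Fermat.Agent.S41.H54

/-- Leaf U7-BRIDGE, verbatim. -/
theorem bridge_leaf : Fermat.Agent.S41.H2.BridgeStatement := by
  intro W p l hp hp2 hl _ hlp hgood A hA g hg hdvd
  obtain ⟨x, y, h, n, m, hP, hx, hy⟩ :=
    exists_torsion_congr_int W hp hp2 hl hlp hgood A hA hdvd
  have hmem : Point.some x y h ∈
      Submodule.torsionBy ℤ ((W.map (Int.castRingHom ℚ))⁄(AlgebraicClosure ℚ)).Point p := by
    rw [Submodule.mem_torsionBy_iff, Nat.cast_smul_eq_nsmul ℤ]
    exact hP
  refine ⟨⟨Point.some x y h, hmem⟩, ?_, ?_⟩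
  · intro h0
    exact Point.some_ne_zero h (congrArg Subtype.val h0)
  · exact Subtype.ext (smul_eq_of_congr_int W hp hp2 hl hlp hgood A hA g hg h n m hP hx hy)

end Fermat.Agent.S41.H54
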